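import Fermat.Agent.PicScheme.Degree.Const

/-!
# The Euler number of a two term complex of projective modules

For a map between projective modules over a noetherian ring with finite kernel and cokernel, the
difference of the dimensions of kernel and cokernel on the fibres is locally constant: add finitely
many generators of the cokernel to the source, then the kernel of the enlarged map is finite
projective and commutes with every base change.
-/

set_option autoImplicit false

noncomputable section

open TensorProduct

universe u

namespace FLTAgent.PicScheme.Degree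

/-- Dimension of the kernel minus dimension of the cokernel. -/
def euler {K Q R : Type u} [Field K] [AddCommGroup Q] [Module K Q] [AddCommGroup R] [Module K R]
    (d : Q →ₗ[K] R) : ℤ :=
  (Module.finrank K (LinearMap.ker d) : ℤ) - Module.finrank K (R ⧸ LinearMap.range d)

/-- The Euler number only depends on the map up to isomorphism. -/
theorem euler_congr {K Q R Q' R' : Type u} [Field K] [AddCommGroup Q] [Module K Q]
    [AddCommGroup R] [Module K R] [AddCommGroup Q'] [Module K Q'] [AddCommGroup R'] [Module K R']
    (d : Q →ₗ[K] R) (d' : Q' →ₗ[K] R') (e : Q ≃ₗ[K] Q') (f : R ≃ₗ[K] R')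
    (h : ∀ x, f (d x) = d' (e x)) : euler d = euler d' := by
  have hk : (LinearMap.ker d).map (e : Q →ₗ[K] Q') = LinearMap.ker d' := by
    ext y
    simp only [Submodule.mem_map_equiv, LinearMap.mem_ker]
    constructor
    · intro hy
      have := h (e.symm y)
      rwa [hy, map_zero, e.apply_symm_apply, eq_comm] at this
    · intro hy
      apply f.injective
      rw [h, e.apply_symm_apply, hy, map_zero]
  have hr : (LinearMap.range d).map (f : R →ₗ[K] R') = LinearMap.range d' := by
    ext y
    simp only [Submodule.mem_map, LinearMap.mem_range]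
    constructor
    · rintro ⟨z, ⟨x, rfl⟩, rfl⟩
      exact ⟨e x, (h x).symm⟩
    · rintro ⟨x, rfl⟩
      exact ⟨d (e.symm x), ⟨e.symm x, rfl⟩, by simp [h]⟩
  rw [euler, euler, (e.submoduleMap (LinearMap.ker d)).finrank_eq, hk,
    (Submodule.Quotient.equiv _ _ f hr).finrank_eq]

/-- Enlarging the source by a finite dimensional space to make the map surjective. -/
theorem euler_eq_of_surjective {K Q R E : Type u} [Field K] [AddCommGroup Q] [Module K Q]
    [AddCommGroup R] [Module K R] [AddCommGroup E] [Module K E] [Module.Finite K E]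
    (d : Q →ₗ[K] R) (φ : E →ₗ[K] R) (hs : Function.Surjective (d.coprod φ))
    [Module.Finite K (LinearMap.ker (d.coprod φ))] :
    euler d = (Module.finrank K (LinearMap.ker (d.coprod φ)) : ℤ) - Module.finrank K E := by
  let q : E →ₗ[K] R ⧸ LinearMap.range d := (LinearMap.range d).mkQ.comp φ
  have hq : Function.Surjective q := by
    intro z
    obtain ⟨r, rfl⟩ := Submodule.mkQ_surjective _ z
    obtain ⟨⟨x, e⟩, rfl⟩ := hs r
    exact ⟨e, ((Submodule.Quotient.eq _).2 ⟨-x, by simp [LinearMap.coprod_apply]⟩)⟩
  let p : LinearMap.ker (d.coprod φ) →ₗ[K] E :=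
    (LinearMap.snd K Q E).comp (LinearMap.ker (d.coprod φ)).subtype
  have hp : LinearMap.range p = LinearMap.ker q := by
    ext e
    simp only [LinearMap.mem_range, LinearMap.mem_ker, q, p, LinearMap.comp_apply,
      Submodule.coe_subtype, LinearMap.snd_apply]
    constructor
    · rintro ⟨⟨⟨x, e'⟩, hx⟩, rfl⟩
      rw [Submodule.mkQ_apply, Submodule.Quotient.mk_eq_zero]
      refine ⟨-x, ?_⟩
      rw [LinearMap.mem_ker, LinearMap.coprod_apply] at hx
      rw [map_neg]
      exact neg_eq_of_add_eq_zero_right hx
    · intro he
      rw [Submodule.mkQ_apply, Submodule.Quotient.mk_eq_zero] at he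
      obtain ⟨x, hx⟩ := he
      exact ⟨⟨(-x, e), by simp [LinearMap.coprod_apply, hx]⟩, rfl⟩
  let j : LinearMap.ker d →ₗ[K] LinearMap.ker p :=
    { toFun := fun x => ⟨⟨((x : Q), 0), by simp [LinearMap.coprod_apply]⟩, rfl⟩
      map_add' := fun x y => by ext <;> simp
      map_smul' := fun c x => by ext <;> simp }
  have hj : Function.Bijective j := by
    refine ⟨fun x y hxy => Subtype.ext (congrArg (fun z => z.1.1.1) hxy), ?_⟩
    rintro ⟨⟨⟨x, e⟩, hx⟩, he⟩
    have he0 : e = 0 := he
    subst he0
    refine ⟨⟨x, ?_⟩, rfl⟩
    simpa [LinearMap.coprod_apply] using hx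
  have h1 := p.finrank_range_add_finrank_ker
  have h2 := q.finrank_range_add_finrank_ker
  rw [LinearMap.range_eq_top.2 hq, finrank_top] at h2
  rw [← (LinearEquiv.ofBijective j hj).finrank_eq, hp] at h1
  rw [euler]
  omega

variable {A Q R : Type u} [CommRing A] [IsNoetherianRing A] [AddCommGroup Q] [Module A Q]
  [Module.Projective A Q] [AddCommGroup R] [Module A R] [Module.Projective A R]

/-- The Euler numbers of the fibres are given by a locally constant function on the spectrum. -/
theorem exists_isLocallyConstant_euler (d : Q →ₗ[A] R) [Module.Finite A (LinearMap.ker d)]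
    [Module.Finite A (R ⧸ LinearMap.range d)] :
    ∃ g : PrimeSpectrum A → ℤ, IsLocallyConstant g ∧
      ∀ (K : Type u) [Field K] [Algebra A K],
        euler (d.baseChange K) = g ⟨RingHom.ker (algebraMap A K), RingHom.ker_isPrime _⟩ := by
  obtain ⟨n, q, hq⟩ := Module.Finite.exists_fin' A (R ⧸ LinearMap.range d)
  obtain ⟨φ, hφ⟩ := Module.projective_lifting_property (LinearMap.range d).mkQ q
    (Submodule.mkQ_surjective _)
  let f : Q × (Fin n → A) →ₗ[A] R := d.coprod φ
  have hf : Function.Surjective f := by
    intro r
    obtain ⟨e, he⟩ := hq (Submodule.Quotient.mk r)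
    rw [← hφ, LinearMap.comp_apply, Submodule.mkQ_apply, Submodule.Quotient.eq] at he
    obtain ⟨x, hx⟩ := he
    exact ⟨(-x, e), by simp [f, LinearMap.coprod_apply, hx]⟩
  let H := LinearMap.ker f
  obtain ⟨s, hs⟩ := Module.projective_lifting_property f LinearMap.id hf
  let r : Q × (Fin n → A) →ₗ[A] H :=
    (LinearMap.id - s.comp f).codRestrict H fun x => by
      have h := LinearMap.congr_fun hs (f x)
      simp only [LinearMap.comp_apply, LinearMap.id_apply] at h
      simp [H, h]
  have hri : r.comp H.subtype = LinearMap.id := by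
    ext x : 1
    apply Subtype.ext
    have hx : f (x : Q × (Fin n → A)) = 0 := x.2
    simp [r, hx]
  have : Module.Projective A H := Module.Projective.of_split H.subtype r hri
  let p : H →ₗ[A] (Fin n → A) := (LinearMap.snd A Q (Fin n → A)).comp H.subtype
  have : Module.Finite A (LinearMap.ker p) := by
    let j : LinearMap.ker p →ₗ[A] LinearMap.ker d :=
      { toFun := fun x => ⟨x.1.1.1, by
          have hx : f x.1.1 = 0 := x.1.2
          have h0 : x.1.1.2 = 0 := x.2
          rw [LinearMap.coprod_apply, h0, map_zero, add_zero] at hx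
          exact hx⟩
        map_add' := fun _ _ => rfl
        map_smul' := fun _ _ => rfl }
    have hj : Function.Injective j := by
      intro x y hxy
      have h1 : x.1.1.1 = y.1.1.1 := congrArg Subtype.val hxy
      have h2 : x.1.1.2 = y.1.1.2 := Eq.trans x.2 (Eq.symm y.2)
      exact Subtype.ext (Subtype.ext (Prod.ext h1 h2))
    exact Module.Finite.of_injective j hj
  have : Module.Finite A H := by
    rw [Module.Finite.iff_fg]
    refine Submodule.fg_of_fg_map_of_fg_inf_ker (LinearMap.snd A Q (Fin n → A)) ?_ ?_
    · exact IsNoetherian.noetherian _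
    · rw [← Module.Finite.iff_fg]
      refine Module.Finite.equiv
        ({ toFun := fun x => ⟨x.1.1, x.1.2, x.2⟩
           invFun := fun x => ⟨⟨x.1, x.2.1⟩, x.2.2⟩
           map_add' := fun _ _ => rfl
           map_smul' := fun _ _ => rfl } : LinearMap.ker p ≃ₗ[A] _)
  have : Module.FinitePresentation A H := Module.finitePresentation_of_projective A H
  refine ⟨fun z => (Module.rankAtStalk (R := A) H z : ℤ) - n,
    (Module.isLocallyConstant_rankAtStalk (R := A) (M := H)).comp fun m : ℕ => (m : ℤ) - n, ?_⟩
  intro K _ _
  let e : K ⊗[A] (Q × (Fin n → A)) ≃ₗ[K] (K ⊗[A] Q) × (K ⊗[A] (Fin n → A)) :=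
    TensorProduct.prodRight A K K Q (Fin n → A)
  have he : ∀ z, ((d.baseChange K).coprod (φ.baseChange K)) (e z) = f.baseChange K z := by
    intro z
    induction z with
    | zero => simp
    | add x y hx hy => rw [map_add, map_add, map_add, hx, hy]
    | tmul a x =>
      obtain ⟨x1, x2⟩ := x
      simp [e, f, LinearMap.coprod_apply, TensorProduct.tmul_add]
  have hinj : Function.Injective (H.subtype.baseChange K) := by
    refine Function.LeftInverse.injective (g := r.baseChange K) fun z => ?_
    rw [← LinearMap.comp_apply, ← LinearMap.baseChange_comp, hri]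
    simp
  have hex : Function.Exact (H.subtype.baseChange K) (f.baseChange K) := by
    exact lTensor_exact K (LinearMap.exact_subtype_ker_map f) hf
  have hrange : (LinearMap.range (H.subtype.baseChange K)).map (e : _ →ₗ[K] _) =
      LinearMap.ker ((d.baseChange K).coprod (φ.baseChange K)) := by
    ext y
    rw [Submodule.mem_map_equiv, LinearMap.mem_ker]
    conv_rhs => rw [← e.apply_symm_apply y, he]
    exact (hex (e.symm y)).symm
  let ι : (K ⊗[A] H) ≃ₗ[K] LinearMap.ker ((d.baseChange K).coprod (φ.baseChange K)) :=
    ((LinearEquiv.ofInjective _ hinj).trans (e.submoduleMap _)).trans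
      (LinearEquiv.ofEq _ _ hrange)
  have : Module.Finite K (LinearMap.ker ((d.baseChange K).coprod (φ.baseChange K))) :=
    Module.Finite.equiv ι
  have hsurj : Function.Surjective ((d.baseChange K).coprod (φ.baseChange K)) := by
    intro y
    obtain ⟨z, rfl⟩ := LinearMap.lTensor_surjective K hf y
    exact ⟨e z, he z⟩
  have hn : Module.finrank K (K ⊗[A] (Fin n → A)) = n := by
    rw [(TensorProduct.piScalarRight A K K (Fin n)).finrank_eq, Module.finrank_fin_fun]
  rw [euler_eq_of_surjective _ _ hsurj, ← ι.finrank_eq, finrank_baseChange_eq, hn]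

end FLTAgent.PicScheme.Degree
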