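import Fermat.Agent.PicScheme.Datum
import Fermat.Agent.PicScheme.Degree.Euler

/-!
# The vectors fixed by an idempotent matrix and their base change
-/

set_option autoImplicit false

noncomputable section

open TensorProduct Matrix

universe u

namespace FLTAgent.PicScheme.Degree

variable (A : Type u) [CommRing A] {R : Type u} [CommRing R] [Algebra A R] {m n : ℕ}

/-- The vectors fixed by a matrix. -/
def fixed (e : Matrix (Fin n) (Fin n) R) : Submodule A (Fin n → R) :=
  LinearMap.eqLocus (e.mulVecLin.restrictScalars A) LinearMap.id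

variable {A}

theorem mem_fixed {e : Matrix (Fin n) (Fin n) R} {p : Fin n → R} :
    p ∈ fixed A e ↔ e *ᵥ p = p := Iff.rfl

variable {e : Matrix (Fin n) (Fin n) R}

theorem mulVec_mem_fixed (he : e * e = e) (p : Fin n → R) : e *ᵥ p ∈ fixed A e := by
  rw [mem_fixed, Matrix.mulVec_mulVec, he]

/-- The projection to the fixed vectors. -/
def toFixed (A : Type u) [CommRing A] [Algebra A R] (he : e * e = e) :
    (Fin n → R) →ₗ[A] fixed A e :=
  (e.mulVecLin.restrictScalars A).codRestrict _ fun p => mulVec_mem_fixed he p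

theorem toFixed_coe (he : e * e = e) (p : Fin n → R) : (toFixed A he p : Fin n → R) = e *ᵥ p := rfl

theorem toFixed_self (he : e * e = e) (p : fixed A e) : toFixed A he p = p :=
  Subtype.ext (mem_fixed.1 p.2)

theorem projective_fixed [Module.Free A R] (he : e * e = e) :
    Module.Projective A (fixed A e) :=
  Module.Projective.of_split (fixed A e).subtype (toFixed A he)
    (LinearMap.ext fun p => toFixed_self he p)

/-- Mutually inverse matrices between two idempotents identify the fixed vectors. -/
def fixedEquiv {e' : Matrix (Fin m) (Fin m) R} (a : Matrix (Fin m) (Fin n) R)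
    (b : Matrix (Fin n) (Fin m) R) (hab : a * b = e') (hba : b * a = e) :
    fixed A e ≃ₗ[A] fixed A e' where
  toFun p := ⟨a *ᵥ p, by
    have hp : e *ᵥ (p : Fin n → R) = p := p.2
    rw [mem_fixed, ← hab, Matrix.mulVec_mulVec, Matrix.mul_assoc, hba, ← Matrix.mulVec_mulVec, hp]⟩
  invFun q := ⟨b *ᵥ q, by
    have hq : e' *ᵥ (q : Fin m → R) = q := q.2
    rw [mem_fixed, ← hba, Matrix.mulVec_mulVec, Matrix.mul_assoc, hab, ← Matrix.mulVec_mulVec, hq]⟩
  left_inv p := Subtype.ext (by
    show b *ᵥ (a *ᵥ (p : Fin n → R)) = p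
    rw [Matrix.mulVec_mulVec, hba]
    exact p.2)
  right_inv q := Subtype.ext (by
    show a *ᵥ (b *ᵥ (q : Fin m → R)) = q
    rw [Matrix.mulVec_mulVec, hab]
    exact q.2)
  map_add' p q := Subtype.ext (Matrix.mulVec_add a (p : Fin n → R) q)
  map_smul' c p := Subtype.ext ((a.mulVecLin.restrictScalars A).map_smul c _)

theorem fixedEquiv_coe {e' : Matrix (Fin m) (Fin m) R} (a : Matrix (Fin m) (Fin n) R)
    (b : Matrix (Fin n) (Fin m) R) (hab : a * b = e') (hba : b * a = e) (p : fixed A e) :
    (fixedEquiv (A := A) a b hab hba p : Fin m → R) = a *ᵥ p := rfl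

/-! ### Base change -/

variable {k : Type u} [Field k] [Algebra k A] {A' : Type u} [CommRing A'] [Algebra k A']
  [Algebra A A'] [IsScalarTower k A A'] {B : Type u} [CommRing B] [Algebra k B]
  {d : Matrix (Fin n) (Fin n) (A ⊗[k] B)}

variable (A A') in
/-- The change of coefficients. -/
abbrev coef (B : Type u) [CommRing B] [Algebra k B] : A ⊗[k] B →ₐ[k] A' ⊗[k] B :=
  Datum.chartMap B (IsScalarTower.toAlgHom k A A')

theorem coef_smul (c : A) (x : A ⊗[k] B) : coef A A' B (c • x) = c • coef A A' B x := by
  induction x using TensorProduct.induction_on with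
  | zero => simp
  | tmul a b =>
    simp [coef, Datum.chartMap, Algebra.smul_def]
  | add x y hx hy => simp [smul_add, hx, hy]

variable (A') in
/-- The fixed vectors mapped to the new coefficients. -/
def fixedExt (d : Matrix (Fin n) (Fin n) (A ⊗[k] B)) :
    fixed A d →ₗ[A] fixed A' (d.map (coef A A' B)) where
  toFun p := ⟨coef A A' B ∘ (p : Fin n → A ⊗[k] B), by
    rw [mem_fixed]
    funext i
    have h := RingHom.map_mulVec (coef A A' B).toRingHom d (p : Fin n → A ⊗[k] B) i
    rw [show d *ᵥ (p : Fin n → A ⊗[k] B) = p from p.2] at h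
    exact h.symm⟩
  map_add' p q := Subtype.ext (funext fun i => map_add _ _ _)
  map_smul' c p := Subtype.ext (funext fun i => by
    simpa using coef_smul (A' := A') c ((p : Fin n → A ⊗[k] B) i))

variable (A') in
/-- The fixed vectors after extension of scalars, to the fixed vectors of the extended matrix. -/
def fixedTensor (d : Matrix (Fin n) (Fin n) (A ⊗[k] B)) :
    A' ⊗[A] fixed A d →ₗ[A'] fixed A' (d.map (coef A A' B)) :=
  TensorProduct.AlgebraTensorModule.lift
    ((LinearMap.ringLmapEquivSelf A' A' (fixed A d →ₗ[A] fixed A' (d.map (coef A A' B)))).symm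
      (fixedExt A' d))

theorem fixedTensor_tmul (a : A') (p : fixed A d) :
    fixedTensor A' d (a ⊗ₜ p) = a • fixedExt A' d p := by
  simp [fixedTensor]

variable (A') in
/-- One coordinate of the inverse. -/
def fixedBack (hd : d * d = d) (i : Fin n) : A' ⊗[k] B →ₗ[A'] A' ⊗[A] fixed A d :=
  TensorProduct.AlgebraTensorModule.lift
    ((LinearMap.ringLmapEquivSelf A' A' (B →ₗ[k] A' ⊗[A] fixed A d)).symm
      (((TensorProduct.mk A A' (fixed A d) 1).comp (toFixed A hd)).restrictScalars k ∘ₗ
        (LinearMap.single k (fun _ : Fin n => A ⊗[k] B) i) ∘ₗ TensorProduct.mk k A B 1))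

theorem fixedBack_tmul (hd : d * d = d) (i : Fin n) (a : A') (b : B) :
    fixedBack A' hd i (a ⊗ₜ b) = a ⊗ₜ toFixed A hd (Pi.single i (1 ⊗ₜ b)) := by
  simp [fixedBack, TensorProduct.smul_tmul']

theorem fixedBack_coef (hd : d * d = d) (i : Fin n) (x : A ⊗[k] B) :
    fixedBack A' hd i (coef A A' B x) = 1 ⊗ₜ toFixed A hd (Pi.single i x) := by
  induction x using TensorProduct.induction_on with
  | zero => simp
  | tmul a b =>
    rw [show coef A A' B (a ⊗ₜ b) = algebraMap A A' a ⊗ₜ b from rfl, fixedBack_tmul,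
      Algebra.algebraMap_eq_smul_one, TensorProduct.smul_tmul]
    rw [← map_smul, ← Pi.single_smul, TensorProduct.smul_tmul', smul_eq_mul, mul_one]
  | add x y hx hy => simp [Pi.single_add, TensorProduct.tmul_add, hx, hy]

theorem fixedTensor_back (hd : d * d = d) (i : Fin n) (x : A' ⊗[k] B) :
    (fixedTensor A' d (fixedBack A' hd i x) : Fin n → A' ⊗[k] B) =
      d.map (coef A A' B) *ᵥ Pi.single i x := by
  induction x using TensorProduct.induction_on with
  | zero => simp
  | tmul a b =>
    rw [fixedBack_tmul, fixedTensor_tmul]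
    funext j
    show a • (coef A A' B).toRingHom ((d *ᵥ Pi.single i (1 ⊗ₜ b)) j) = _
    rw [RingHom.map_mulVec]
    show a • (d.map (coef A A' B) *ᵥ fun l => coef A A' B (Pi.single (M := fun _ : Fin n => A ⊗[k] B) i (1 ⊗ₜ b) l)) j = _
    rw [show (fun l => coef A A' B (Pi.single (M := fun _ : Fin n => A ⊗[k] B) i (1 ⊗ₜ b) l)) =
      Pi.single i ((1 : A') ⊗ₜ b) from funext fun l => by
        rw [Pi.apply_single (fun _ => coef A A' B) (fun _ => map_zero _)]
        simp [coef, Datum.chartMap], ← Pi.smul_apply, ← Matrix.mulVec_smul, ← Pi.single_smul,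
      TensorProduct.smul_tmul', smul_eq_mul, mul_one]
  | add x y hx hy => simp [Pi.single_add, Matrix.mulVec_add, hx, hy]

variable (A') in
/-- Fixed vectors commute with extension of scalars. -/
def fixedBaseChange (hd : d * d = d) :
    A' ⊗[A] fixed A d ≃ₗ[A'] fixed A' (d.map (coef A A' B)) :=
  LinearEquiv.ofLinearMap (fixedTensor A' d)
    (∑ i, fixedBack A' hd i ∘ₗ LinearMap.proj i ∘ₗ (fixed A' (d.map (coef A A' B))).subtype)
    (LinearMap.ext fun z => Subtype.ext (by
      simp only [LinearMap.comp_apply, LinearMap.sum_apply, map_sum, LinearMap.id_apply,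
        Submodule.coe_sum, fixedTensor_back, Submodule.coe_subtype, LinearMap.proj_apply]
      rw [← Matrix.mulVec_sum, Finset.univ_sum_single]
      exact z.2))
    (TensorProduct.AlgebraTensorModule.ext fun a p => by
      simp only [LinearMap.comp_apply, LinearMap.sum_apply, LinearMap.id_apply,
        Submodule.coe_subtype, LinearMap.proj_apply, fixedTensor_tmul, map_smul]
      show a • ∑ i, fixedBack A' hd i (coef A A' B ((p : Fin n → A ⊗[k] B) i)) = _
      simp only [fixedBack_coef, ← TensorProduct.tmul_sum, ← map_sum, Finset.univ_sum_single,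
        toFixed_self, TensorProduct.smul_tmul', smul_eq_mul, mul_one])

theorem fixedBaseChange_tmul (hd : d * d = d) (a : A') (p : fixed A d) :
    (fixedBaseChange A' hd (a ⊗ₜ p) : Fin n → A' ⊗[k] B) =
      a • (coef A A' B ∘ (p : Fin n → A ⊗[k] B)) :=
  congrArg Subtype.val (fixedTensor_tmul a p)

end FLTAgent.PicScheme.Degree
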