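import Fermat.Agent.PicScheme.Basic
import Fermat.Agent.PicScheme.Degree.Fixed

/-!
# The Euler characteristic of a datum is constant in families

The complex of a datum consists of projective modules over the coefficients and commutes with
extension of scalars, so the Euler characteristic on the fibres is locally constant once kernel
and cokernel are finite.
-/

set_option autoImplicit false

noncomputable section

open TensorProduct Matrix

universe u

namespace FLTAgent.PicScheme.Degree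

variable {k : Type u} [Field k] {X : Charts k} {A : Type u} [CommRing A] [Algebra k A]

theorem e₂_mul_u (L : Datum X A) : L.e₂.map (X.res₂ A) * L.u = L.u := by
  rw [← L.uv, Matrix.mul_assoc, L.vu, L.u_cut]

theorem e₂_idem (L : Datum X A) :
    L.e₂.map (X.res₂ A) * L.e₂.map (X.res₂ A) = L.e₂.map (X.res₂ A) := by
  rw [← Matrix.map_mul, L.rank₂.idem]

theorem res_mulVec₂ (L : Datum X A) (p : Fin L.n₂ → X.R₂ A) :
    L.e₂.map (X.res₂ A) *ᵥ (X.res₂ A ∘ p) = X.res₂ A ∘ (L.e₂ *ᵥ p) :=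
  funext fun i => (RingHom.map_mulVec (X.res₂ A).toRingHom L.e₂ p i).symm

theorem res_mulVec₁ (L : Datum X A) (p : Fin L.n₁ → X.R₁ A) :
    L.e₁.map (X.res₁ A) *ᵥ (X.res₁ A ∘ p) = X.res₁ A ∘ (L.e₁ *ᵥ p) :=
  funext fun i => (RingHom.map_mulVec (X.res₁ A).toRingHom L.e₁ p i).symm

/-- The complex of a datum. -/
def dlt (L : Datum X A) :
    fixed A L.e₁ × fixed A L.e₂ →ₗ[A] fixed A (L.e₂.map (X.res₂ A)) :=
  (L.delta ∘ₗ ((fixed A L.e₁).subtype.prodMap (fixed A L.e₂).subtype)).codRestrict _ fun p => by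
    rw [mem_fixed]
    show L.e₂.map (X.res₂ A) *ᵥ (L.u *ᵥ _ - L.e₂.map (X.res₂ A) *ᵥ _) =
      L.u *ᵥ _ - L.e₂.map (X.res₂ A) *ᵥ _
    rw [Matrix.mulVec_sub, Matrix.mulVec_mulVec, Matrix.mulVec_mulVec, e₂_mul_u, e₂_idem]

theorem dlt_coe (L : Datum X A) (p : fixed A L.e₁ × fixed A L.e₂) :
    (dlt L p : Fin L.n₂ → X.R₀ A) =
      L.u *ᵥ (X.res₁ A ∘ (p.1 : Fin L.n₁ → X.R₁ A)) -
        L.e₂.map (X.res₂ A) *ᵥ (X.res₂ A ∘ (p.2 : Fin L.n₂ → X.R₂ A)) := rfl

theorem dlt_coe' (L : Datum X A) (p : fixed A L.e₁ × fixed A L.e₂) :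
    (dlt L p : Fin L.n₂ → X.R₀ A) =
      L.u *ᵥ (X.res₁ A ∘ (p.1 : Fin L.n₁ → X.R₁ A)) -
        X.res₂ A ∘ (p.2 : Fin L.n₂ → X.R₂ A) := by
  rw [dlt_coe, res_mulVec₂, mem_fixed.1 p.2.2]

theorem mem_range_delta (L : Datum X A) (z : fixed A (L.e₂.map (X.res₂ A))) :
    z ∈ LinearMap.range (dlt L) ↔ (z : Fin L.n₂ → X.R₀ A) ∈ LinearMap.range L.delta := by
  constructor
  · rintro ⟨p, rfl⟩
    exact ⟨(p.1, p.2), rfl⟩
  · rintro ⟨p, hp⟩
    refine ⟨(toFixed A L.rank₁.idem p.1, toFixed A L.rank₂.idem p.2), Subtype.ext ?_⟩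
    rw [← hp, dlt_coe, toFixed_coe, toFixed_coe]
    show _ = L.u *ᵥ (X.res₁ A ∘ p.1) - L.e₂.map (X.res₂ A) *ᵥ (X.res₂ A ∘ p.2)
    rw [← res_mulVec₁, ← res_mulVec₂, Matrix.mulVec_mulVec, Matrix.mulVec_mulVec, L.u_cut, e₂_idem]

theorem overlap_eq_fixed (L : Datum X A) : L.overlap = fixed A (L.e₂.map (X.res₂ A)) := by
  ext z
  rw [mem_fixed, Datum.overlap, LinearMap.mem_range]
  constructor
  · rintro ⟨y, rfl⟩
    show L.e₂.map (X.res₂ A) *ᵥ (L.e₂.map (X.res₂ A) *ᵥ y) = L.e₂.map (X.res₂ A) *ᵥ y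
    rw [Matrix.mulVec_mulVec, e₂_idem]
  · exact fun h => ⟨z, h⟩

/-- The kernel of the complex is the module of sections. -/
def kerEquiv (L : Datum X A) : LinearMap.ker (dlt L) ≃ₗ[A] L.H0 where
  toFun p := ⟨((p.1.1 : Fin L.n₁ → X.R₁ A), (p.1.2 : Fin L.n₂ → X.R₂ A)),
    p.1.1.2, p.1.2.2, by
      have h := congrArg Subtype.val (LinearMap.mem_ker.1 p.2)
      rw [dlt_coe'] at h
      exact sub_eq_zero.1 h⟩
  invFun q := ⟨(⟨q.1.1, q.2.1⟩, ⟨q.1.2, q.2.2.1⟩), Subtype.ext (by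
    rw [dlt_coe']
    exact sub_eq_zero.2 q.2.2.2)⟩
  left_inv _ := rfl
  right_inv _ := rfl
  map_add' _ _ := rfl
  map_smul' _ _ := rfl

theorem chi_eq_euler {K : Type u} [Field K] [Algebra k K] (L : Datum X K) :
    L.chi = euler (dlt L) := by
  have h : (LinearMap.range (dlt L)).map
      (LinearEquiv.ofEq _ _ (overlap_eq_fixed L).symm : _ →ₗ[K] L.overlap) =
      (LinearMap.range L.delta).comap L.overlap.subtype := by
    ext z
    rw [Submodule.mem_map_equiv, Submodule.mem_comap]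
    exact mem_range_delta L _
  rw [Datum.chi, euler, ← (kerEquiv L).finrank_eq,
    ← (Submodule.Quotient.equiv _ _ (LinearEquiv.ofEq _ _ (overlap_eq_fixed L).symm) h).finrank_eq]

theorem chi_eq_of_iso {K : Type u} [Field K] [Algebra k K] {L L' : Datum X K}
    (φ : Datum.Iso L L') : L.chi = L'.chi := by
  rw [chi_eq_euler, chi_eq_euler]
  refine euler_congr _ _
    ((fixedEquiv φ.a₁ φ.b₁ φ.ab₁ φ.ba₁).prodCongr (fixedEquiv φ.a₂ φ.b₂ φ.ab₂ φ.ba₂))
    (fixedEquiv (φ.a₂.map (X.res₂ K)) (φ.b₂.map (X.res₂ K))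
      (by rw [← Matrix.map_mul, φ.ab₂]) (by rw [← Matrix.map_mul, φ.ba₂])) fun p => Subtype.ext ?_
  rw [fixedEquiv_coe, dlt_coe', dlt_coe', Matrix.mulVec_sub, Matrix.mulVec_mulVec, ← φ.compat]
  show _ = L'.u *ᵥ (X.res₁ K ∘ (φ.a₁ *ᵥ (p.1 : Fin L.n₁ → X.R₁ K))) -
    X.res₂ K ∘ (φ.a₂ *ᵥ (p.2 : Fin L.n₂ → X.R₂ K))
  have h1 : X.res₁ K ∘ (φ.a₁ *ᵥ (p.1 : Fin L.n₁ → X.R₁ K)) =
      φ.a₁.map (X.res₁ K) *ᵥ (X.res₁ K ∘ (p.1 : Fin L.n₁ → X.R₁ K)) :=
    funext fun i => RingHom.map_mulVec (X.res₁ K).toRingHom φ.a₁ _ i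
  have h2 : X.res₂ K ∘ (φ.a₂ *ᵥ (p.2 : Fin L.n₂ → X.R₂ K)) =
      φ.a₂.map (X.res₂ K) *ᵥ (X.res₂ K ∘ (p.2 : Fin L.n₂ → X.R₂ K)) :=
    funext fun i => RingHom.map_mulVec (X.res₂ K).toRingHom φ.a₂ _ i
  rw [h1, h2, ← Matrix.mulVec_mulVec, ← Matrix.mulVec_mulVec, res_mulVec₁, mem_fixed.1 p.1.2]

/-! ### Base change -/

variable {A' : Type u} [CommRing A'] [Algebra k A'] [Algebra A A'] [IsScalarTower k A A']

variable (A A') in
/-- The structure map as a homomorphism of algebras. -/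
abbrev algHom : A →ₐ[k] A' := IsScalarTower.toAlgHom k A A'

theorem map_e₂_res (L : Datum X A) :
    (L.e₂.map (X.res₂ A)).map (coef A A' X.B₀) = (L.map (algHom A A')).e₂.map (X.res₂ A') := by
  rw [Matrix.map_map]
  exact Matrix.ext fun i j => Datum.chartMap_res₂ (algHom A A') _

variable (A') in
/-- The source of the complex after extension of scalars. -/
def sourceEquiv (L : Datum X A) :
    A' ⊗[A] (fixed A L.e₁ × fixed A L.e₂) ≃ₗ[A']
      fixed A' (L.map (algHom A A')).e₁ × fixed A' (L.map (algHom A A')).e₂ :=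
  (TensorProduct.prodRight A A' A' _ _).trans
    ((fixedBaseChange A' L.rank₁.idem).prodCongr (fixedBaseChange A' L.rank₂.idem))

variable (A') in
/-- The target of the complex after extension of scalars. -/
def targetEquiv (L : Datum X A) :
    A' ⊗[A] fixed A (L.e₂.map (X.res₂ A)) ≃ₗ[A']
      fixed A' ((L.map (algHom A A')).e₂.map (X.res₂ A')) :=
  (fixedBaseChange A' (e₂_idem L)).trans
    (LinearEquiv.ofEq _ _ (congrArg (fixed A') (map_e₂_res L)))

theorem targetEquiv_dlt (L : Datum X A) (z : A' ⊗[A] (fixed A L.e₁ × fixed A L.e₂)) :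
    targetEquiv A' L ((dlt L).baseChange A' z) =
      dlt (L.map (algHom A A')) (sourceEquiv A' L z) := by
  induction z using TensorProduct.induction_on with
  | zero => simp
  | add x y hx hy => simp [hx, hy]
  | tmul a p =>
    have h0 : ∀ q : fixed A L.e₁ × fixed A L.e₂,
        targetEquiv A' L ((1 : A') ⊗ₜ dlt L q) =
          dlt (L.map (algHom A A')) (sourceEquiv A' L ((1 : A') ⊗ₜ q)) := by
      intro q
      apply Subtype.ext
      rw [dlt_coe']
      show ((fixedBaseChange A' (e₂_idem L) ((1 : A') ⊗ₜ dlt L q) : fixed A' _) :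
          Fin L.n₂ → X.R₀ A') =
        L.u.map (coef A A' X.B₀) *ᵥ
          (X.res₁ A' ∘ (fixedBaseChange A' L.rank₁.idem ((1 : A') ⊗ₜ q.1) : fixed A' _).1) -
          X.res₂ A' ∘ (fixedBaseChange A' L.rank₂.idem ((1 : A') ⊗ₜ q.2) : fixed A' _).1
      rw [fixedBaseChange_tmul, fixedBaseChange_tmul, fixedBaseChange_tmul, one_smul, one_smul,
        one_smul, dlt_coe']
      funext i
      show coef A A' X.B₀ ((L.u *ᵥ (X.res₁ A ∘ (q.1 : Fin L.n₁ → X.R₁ A))) i -
        X.res₂ A ((q.2 : Fin L.n₂ → X.R₂ A) i)) = _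
      rw [map_sub]
      refine congrArg₂ (· - ·) ?_ (Datum.chartMap_res₂ _ _)
      refine (RingHom.map_mulVec (coef A A' X.B₀).toRingHom L.u _ i).trans ?_
      exact congrFun (congrArg (L.u.map (coef A A' X.B₀) *ᵥ ·)
        (funext fun j => Datum.chartMap_res₁ (algHom A A') _)) i
    rw [LinearMap.baseChange_tmul, ← mul_one a, ← smul_eq_mul, ← TensorProduct.smul_tmul',
      ← TensorProduct.smul_tmul', map_smul, map_smul, map_smul, h0]

theorem chi_map {K : Type u} [Field K] [Algebra k K] [Algebra A K] [IsScalarTower k A K]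
    (L : Datum X A) : (L.map (algHom A K)).chi = euler ((dlt L).baseChange K) := by
  rw [chi_eq_euler]
  exact (euler_congr _ _ (sourceEquiv K L) (targetEquiv K L) (targetEquiv_dlt L)).symm

variable (X A) in
/-- The complexes of all data have finite kernels and cokernels. -/
def HasFiniteComplex : Prop :=
  ∀ L : Datum X A, Module.Finite A (LinearMap.ker (dlt L)) ∧
    Module.Finite A (fixed A (L.e₂.map (X.res₂ A)) ⧸ LinearMap.range (dlt L))

/-- The Euler characteristic is the same on all fibres over an irreducible spectrum. -/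
theorem chi_map_eq_of_irreducible [IsNoetherianRing A] [IrreducibleSpace (PrimeSpectrum A)]
    (hfin : HasFiniteComplex X A) (L : Datum X A) {K : Type u} [Field K] [Algebra k K]
    (φ ψ : A →ₐ[k] K) : (L.map φ).chi = (L.map ψ).chi := by
  obtain ⟨h1, h2⟩ := hfin L
  have : Module.Projective A (fixed A L.e₁) := projective_fixed L.rank₁.idem
  have : Module.Projective A (fixed A L.e₂) := projective_fixed L.rank₂.idem
  have : Module.Projective A (fixed A (L.e₂.map (X.res₂ A))) := projective_fixed (e₂_idem L)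
  obtain ⟨g, hg, he⟩ := exists_isLocallyConstant_euler (dlt L)
  have key : ∀ χ : A →ₐ[k] K, ∃ z, (L.map χ).chi = g z := fun χ => by
    let := χ.toRingHom.toAlgebra
    have : IsScalarTower k A K := IsScalarTower.of_algHom χ
    refine ⟨⟨RingHom.ker (algebraMap A K), RingHom.ker_isPrime _⟩, ?_⟩
    rw [← he K, ← chi_map L]
    congr 2
  obtain ⟨z, hz⟩ := key φ
  obtain ⟨z', hz'⟩ := key ψ
  rw [hz, hz', hg.apply_eq_of_preconnectedSpace z z']

end FLTAgent.PicScheme.Degree
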