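import Mathlib

/-!
# Ranks of finite projective modules along a family

A number attached to the points of an irreducible scheme is constant if on each member of an affine
cover it is the rank of a finite projective module minus a constant.
-/

set_option autoImplicit false

noncomputable section

open CategoryTheory AlgebraicGeometry TensorProduct

universe u

namespace FLTAgent.PicScheme.Degree

/-- The rank at a point is the dimension of the fibre over any field under the point. -/
theorem finrank_baseChange_eq {A : Type u} [CommRing A] (P : Type u) [AddCommGroup P] [Module A P]
    [Module.Finite A P] [Module.Projective A P] (K : Type u) [Field K] [Algebra A K] :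
    Module.finrank K (K ⊗[A] P) =
      Module.rankAtStalk (R := A) P ⟨RingHom.ker (algebraMap A K), RingHom.ker_isPrime _⟩ := by
  let z : PrimeSpectrum K := ⟨⊥, Ideal.isPrime_bot⟩
  have h := Module.rankAtStalk_baseChange (M := P) (R := A) z
  rw [Module.rankAtStalk_eq_finrank_of_free] at h
  refine (by simpa using h : Module.finrank K (K ⊗[A] P) = _).trans ?_
  congr 1

/-- An invariant locally given by ranks is the same at all points of an irreducible scheme. -/
theorem eq_of_locally_rank {T : Scheme.{u}} [IrreducibleSpace T] (χ : T → ℤ)
    (h : ∀ x : T, ∃ (U : T.Opens), x ∈ U ∧ ∀ y ∈ U, χ y = χ x) (x y : T) : χ x = χ y := by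
  have hloc : IsLocallyConstant χ := (IsLocallyConstant.iff_exists_open χ).2 fun z => by
    obtain ⟨U, hz, hU⟩ := h z
    exact ⟨U, U.2, hz, hU⟩
  exact hloc.apply_eq_of_preconnectedSpace x y

end FLTAgent.PicScheme.Degree
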