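import Fermat.Prelude.Def_AlgebraicGeometry_RelPicardAlgEquivZeroCut

/-!
# Invariants locally constant in families vanish on modules algebraically equivalent to zero

Over an algebraically closed field two nonempty opens of an irreducible base meet in a rational
point, so an invariant which is locally constant on rational points is constant on them.
-/

set_option autoImplicit false

noncomputable section

open CategoryTheory CategoryTheory.Limits AlgebraicGeometry AlgebraicGeometry.RelPicard
  NeronModelInfra

universe u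

namespace FLTAgent.PicScheme.Degree

variable {k : Type u} [Field k] {A : Scheme.{u}} (a : A ⟶ Spec (CommRingCat.of k))

/-- The image of the only point. -/
def pointOf {T : Scheme.{u}} {h : T ⟶ Spec (CommRingCat.of k)}
    (t : SchemeHomOver (𝟙 (Spec (CommRingCat.of k))) h) : T :=
  t.1 (IsLocalRing.closedPoint k)

/-- `d` is locally constant on the rational points of every irreducible base. -/
def LocallyConstantOnPoints
    (d : (pullback a (𝟙 (Spec (CommRingCat.of k)))).Modules → ℤ) : Prop :=
  ∀ (T : Scheme.{u}) (h : T ⟶ Spec (CommRingCat.of k)), LocallyOfFiniteType h →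
    IrreducibleSpace T → ∀ M : (pullback a h).Modules, Scheme.Modules.IsInvertible M →
      ∀ x : T, ∃ U : T.Opens, x ∈ U ∧ ∀ t t' : SchemeHomOver (𝟙 (Spec (CommRingCat.of k))) h,
        pointOf t ∈ U → pointOf t' ∈ U →
          d ((Scheme.Modules.pullback (baseChangeSnd a t)).obj M) =
            d ((Scheme.Modules.pullback (baseChangeSnd a t')).obj M)

variable {a}
variable {d : (pullback a (𝟙 (Spec (CommRingCat.of k)))).Modules → ℤ}

/-- Such an invariant is that of the trivial module on a module algebraically equivalent to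
zero. -/
theorem invariant_eq_of_isAlgEquivZero [IsAlgClosed k]
    (hiso : ∀ M M', Nonempty (M ≅ M') → d M = d M') (hd : LocallyConstantOnPoints a d)
    {L : A.Modules} (hL : IsAlgEquivZero a L) :
    d ((Scheme.Modules.pullback (pullback.fst a (𝟙 (Spec (CommRingCat.of k))))).obj L) =
      d (SheafOfModules.unit (pullback a (𝟙 (Spec (CommRingCat.of k)))).ringCatSheaf) := by
  obtain ⟨T, h, hft, hgi, M, hM, t₀, t₁, e₀, e₁⟩ := hL
  have := hft
  have := hgi
  have hirr : IrreducibleSpace T := GeometricallyIrreducible.irreducibleSpace_of_subsingleton h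
  have := LocallyOfFiniteType.jacobsonSpace h
  rw [← hiso _ _ e₁, ← hiso _ _ e₀]
  obtain ⟨V₀, ht₀, h₀⟩ := hd T h hft hirr M hM (pointOf t₀)
  obtain ⟨V₁, ht₁, h₁⟩ := hd T h hft hirr M hM (pointOf t₁)
  have hne : ((V₀ : Set T) ∩ (V₁ : Set T)).Nonempty :=
    nonempty_preirreducible_inter V₀.2 V₁.2 ⟨_, ht₀⟩ ⟨_, ht₁⟩
  obtain ⟨z, hz, hzc⟩ := nonempty_inter_closedPoints hne
    (V₀.2.inter V₁.2).isLocallyClosed
  let t₂ : SchemeHomOver (𝟙 (Spec (CommRingCat.of k))) h :=
    ⟨pointOfClosedPoint h z hzc, pointOfClosedPoint_comp h z hzc⟩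
  have ht₂ : pointOf t₂ = z := pointOfClosedPoint_apply h z hzc _
  rw [h₁ t₁ t₂ ht₁ (ht₂.symm ▸ hz.2), h₀ t₂ t₀ (ht₂.symm ▸ hz.1) ht₀]

end FLTAgent.PicScheme.Degree
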