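import Fermat.Agent.PicScheme.Interface
import Fermat.Agent.PicScheme.Degree.Family
import Fermat.Agent.PicScheme.Points.Finite

/-!
# Algebraic equivalence to zero is degree zero

A family gives data over the affine parts of its base, on which the Euler characteristic is
constant; conversely the universal class on the representing scheme is a family.
-/

set_option autoImplicit false
set_option linter.unusedSimpArgs false

noncomputable section

open CategoryTheory CategoryTheory.Limits AlgebraicGeometry AlgebraicGeometry.RelPicard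
  NeronModelInfra GoodReductionJacobian

universe u

set_option backward.isDefEq.respectTransparency false
set_option backward.isDefEq.respectTransparency.types false

namespace FLTAgent.PicScheme.Degree

variable {k : Type u} [Field k]

/-- The Euler characteristic of a class. -/
def chiCls {X : Charts k} {K : Type u} [Field K] [Algebra k K] : Cls X K → ℤ :=
  Quot.lift (fun L => L.1.chi) fun _ _ h => chi_eq_of_iso h.some

variable {C : Scheme.{u}} {c : C ⟶ Spec (CommRingCat.of k)}
  {ε : SchemeHomOver (𝟙 (Spec (CommRingCat.of k))) c}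

@[reassoc]
theorem baseChangeSnd_fst {T T' : Scheme.{u}} {t : T ⟶ Spec (CommRingCat.of k)}
    {t' : T' ⟶ Spec (CommRingCat.of k)} (a : SchemeHomOver t' t) :
    baseChangeSnd c a ≫ pullback.fst c t = pullback.fst c t' :=
  (pullback.lift_fst _ _ _).trans (Category.comp_id _)

@[reassoc]
theorem baseChangeSnd_snd {T T' : Scheme.{u}} {t : T ⟶ Spec (CommRingCat.of k)}
    {t' : T' ⟶ Spec (CommRingCat.of k)} (a : SchemeHomOver t' t) :
    baseChangeSnd c a ≫ pullback.snd c t = pullback.snd c t' ≫ a.1 :=
  pullback.lift_snd _ _ _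

section

variable {F : Frame c ε} (Δ : Dict F) {K : Type u} [Field K] [Algebra k K]

open scoped Classical in
/-- The Euler characteristic of a module which can be rigidified. -/
def chiMod (M : (pullback c (specT k K)).Modules) : ℤ :=
  if h : ∃ R : RigidifiedLineBundle c ε (specT k K), Nonempty (R.L ≅ M) then
    chiCls (Δ.cls K h.choose) else 0

theorem chiMod_eq (R : RigidifiedLineBundle c ε (specT k K))
    {M : (pullback c (specT k K)).Modules} (e : Nonempty (R.L ≅ M)) :
    chiMod Δ M = chiCls (Δ.cls K R) := by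
  have h : ∃ R : RigidifiedLineBundle c ε (specT k K), Nonempty (R.L ≅ M) := ⟨R, e⟩
  rw [chiMod, dif_pos h, (Δ.cls_eq_iff K _ _).2 ⟨h.choose_spec.some ≪≫ e.some.symm⟩]

theorem chiMod_congr (M M' : (pullback c (specT k K)).Modules) (e : Nonempty (M ≅ M')) :
    chiMod Δ M = chiMod Δ M' := by
  by_cases h : ∃ R : RigidifiedLineBundle c ε (specT k K), Nonempty (R.L ≅ M)
  · obtain ⟨R, ⟨eR⟩⟩ := h
    rw [chiMod_eq Δ R ⟨eR⟩, chiMod_eq Δ R ⟨eR ≪≫ e.some⟩]
  · have h' : ¬ ∃ R : RigidifiedLineBundle c ε (specT k K), Nonempty (R.L ≅ M') :=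
      fun ⟨R, ⟨eR⟩⟩ => h ⟨R, ⟨eR ≪≫ e.some.symm⟩⟩
    rw [chiMod, chiMod, dif_neg h, dif_neg h']

variable {T : Scheme.{u}} {t : T ⟶ Spec (CommRingCat.of k)} (q : SchemeHomOver (specT k K) t)

/-- A family over a `K`-scheme as a family over a `k`-scheme. -/
def familyMap {T' : Scheme.{u}} (h : T' ⟶ Spec (CommRingCat.of K)) :
    pullback c (h ≫ specT k K) ⟶ pullback (fibreAt c t q.1) h :=
  pullback.lift
    (pullback.lift
      (baseChangeSnd c (⟨h ≫ q.1, by rw [Category.assoc, q.2]⟩ : SchemeHomOver (h ≫ specT k K) t))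
      (pullback.snd c (h ≫ specT k K) ≫ h)
      (by simp [baseChangeSnd_snd]))
    (pullback.snd c (h ≫ specT k K))
    (by simp [fibreAt])

variable (c) in
/-- The fibre over `K` from the curve over `K`. -/
def fibreTo : pullback c (specT k K) ⟶ pullback (fibreAt c t q.1) (𝟙 (Spec (CommRingCat.of K))) :=
  pullback.lift (pullback.lift (baseChangeSnd c q) (pullback.snd c (specT k K))
    (by simp [baseChangeSnd_snd])) (pullback.snd c (specT k K)) (by simp [fibreAt])

variable (c) in
/-- The curve over `K` from the fibre over `K`. -/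
def fibreFrom : pullback (fibreAt c t q.1) (𝟙 (Spec (CommRingCat.of K))) ⟶ pullback c (specT k K) :=
  pullback.lift (pullback.fst (fibreAt c t q.1) _ ≫ pullback.fst (pullback.snd c t) q.1 ≫
      pullback.fst c t)
    (pullback.snd (fibreAt c t q.1) _) (by
      rw [← cancel_epi (𝟙 _)]
      have h1 := pullback.condition (f := fibreAt c t q.1) (g := 𝟙 (Spec (CommRingCat.of K)))
      simp only [Category.id_comp, Category.assoc, Category.comp_id] at h1 ⊢
      rw [pullback.condition (f := c) (g := t), ← Category.assoc (pullback.fst (pullback.snd c t) q.1),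
        pullback.condition (f := pullback.snd c t) (g := q.1), Category.assoc, q.2, ← h1]
      simp [fibreAt])

theorem fibreFrom_baseChangeSnd :
    fibreFrom c q ≫ baseChangeSnd c q =
      pullback.fst (fibreAt c t q.1) _ ≫ pullback.fst (pullback.snd c t) q.1 := by
  have h1 := pullback.condition (f := fibreAt c t q.1) (g := 𝟙 (Spec (CommRingCat.of K)))
  simp only [fibreAt, Category.comp_id] at h1
  apply pullback.hom_ext
  · simp [fibreFrom, baseChangeSnd_fst]
  · simp only [fibreFrom, Category.assoc, baseChangeSnd_snd, pullback.lift_snd_assoc]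
    rw [pullback.condition (f := pullback.snd c t) (g := q.1), ← Category.assoc (pullback.fst _ _)]
    exact congrArg (· ≫ q.1) h1.symm

theorem baseChangeSnd_familyMap {T' : Scheme.{u}} (h : T' ⟶ Spec (CommRingCat.of K))
    (τ : SchemeHomOver (𝟙 (Spec (CommRingCat.of K))) h)
    (τ' : SchemeHomOver (specT k K) (h ≫ specT k K)) (hτ : τ'.1 = τ.1) :
    baseChangeSnd c τ' ≫ familyMap q h = fibreTo c q ≫ baseChangeSnd (fibreAt c t q.1) τ := by
  have h2 := τ.2
  apply pullback.hom_ext
  · apply pullback.hom_ext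
    · apply pullback.hom_ext <;>
        simp [familyMap, fibreTo, baseChangeSnd_fst, baseChangeSnd_snd, baseChangeSnd_fst_assoc, baseChangeSnd_snd_assoc, hτ, reassoc_of% h2]
    · simp [familyMap, fibreTo, baseChangeSnd_fst, baseChangeSnd_snd, baseChangeSnd_fst_assoc, baseChangeSnd_snd_assoc, fibreAt, hτ, h2]
  · simp [familyMap, fibreTo, baseChangeSnd_fst, baseChangeSnd_snd, baseChangeSnd_fst_assoc, baseChangeSnd_snd_assoc, fibreAt, hτ]

/-- The Euler characteristic of a module on the fibre. -/
def chiFibre (M : (pullback (fibreAt c t q.1) (𝟙 (Spec (CommRingCat.of K)))).Modules) : ℤ :=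
  chiMod Δ ((Scheme.Modules.pullback (fibreTo c q)).obj M)

theorem chiFibre_congr
    (M M' : (pullback (fibreAt c t q.1) (𝟙 (Spec (CommRingCat.of K)))).Modules)
    (e : Nonempty (M ≅ M')) : chiFibre Δ q M = chiFibre Δ q M' :=
  chiMod_congr Δ _ _ ⟨(Scheme.Modules.pullback _).mapIso e.some⟩

theorem locallyConstant_chiFibre : LocallyConstantOnPoints (fibreAt c t q.1) (chiFibre Δ q) := by
  intro T' h hft hirr N hN x
  have := hft
  have := hirr
  have hN' : Scheme.Modules.IsInvertible ((Scheme.Modules.pullback (familyMap q h)).obj N) :=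
    hN.pullback _
  obtain ⟨U, hxU, ⟨eU⟩⟩ := (hN'.pullback (rigSection c (h ≫ specT k K) ε)).1 x
  obtain ⟨V, hV, hxV, hVU⟩ := exists_isAffineOpen_mem_and_subset hxU
  obtain ⟨φB, hφB⟩ := Spec.map_surjective (hV.fromSpec ≫ h)
  let : Algebra K Γ(T', V) := φB.hom.toAlgebra
  let : Algebra k Γ(T', V) := (φB.hom.comp (algebraMap k K)).toAlgebra
  have : IsScalarTower k K Γ(T', V) := IsScalarTower.of_algebraMap_eq fun _ => rfl
  have hbase : hV.fromSpec ≫ h ≫ specT k K = specT k Γ(T', V) := by
    rw [← Category.assoc, ← hφB, specT, specT, ← Spec.map_comp]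
    rfl
  let i : SchemeHomOver (specT k Γ(T', V)) (h ≫ specT k K) := ⟨hV.fromSpec, hbase⟩
  have hrange : Set.range i.1 ⊆ Set.range U.ι :=
    hV.range_fromSpec.subset.trans (hVU.trans U.range_ι.symm.subset)
  let l := IsOpenImmersion.lift U.ι i.1 hrange
  have hl : l ≫ U.ι = i.1 := IsOpenImmersion.lift_fac _ _ _
  let R : RigidifiedLineBundle c ε (specT k Γ(T', V)) :=
    { L := (Scheme.Modules.pullback (baseChangeSnd c i)).obj
        ((Scheme.Modules.pullback (familyMap q h)).obj N)
      isInvertible := hN'.pullback _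
      rigidified := ⟨(Scheme.Modules.pullbackComp _ _).app _ ≪≫
        (Scheme.Modules.pullbackCongr (rigSection_baseChangeSnd c ε i)).app _ ≪≫
        ((Scheme.Modules.pullbackComp _ _).app _).symm ≪≫
        (Scheme.Modules.pullbackCongr hl.symm).app _ ≪≫
        ((Scheme.Modules.pullbackComp _ _).app _).symm ≪≫
        (Scheme.Modules.pullback l).mapIso eU ≪≫
        Scheme.Modules.pullbackUnitIso l⟩ }
  obtain ⟨L₀, hL₀⟩ := Quot.exists_rep (Δ.cls _ R)
  have : IsLocallyNoetherian T' := LocallyOfFiniteType.isLocallyNoetherian h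
  have : IsNoetherianRing Γ(T', V) := IsLocallyNoetherian.component_noetherian ⟨V, hV⟩
  have : IrreducibleSpace (PrimeSpectrum Γ(T', V)) := by
    have hne : Nonempty (Spec Γ(T', V)) := by
      have hmem : x ∈ Set.range hV.fromSpec := by rw [hV.range_fromSpec]; exact hxV
      exact ⟨hmem.choose⟩
    have hp : PreirreducibleSpace (Spec Γ(T', V)) :=
      hV.fromSpec.isOpenEmbedding.preirreducibleSpace
    exact { toPreirreducibleSpace := hp, toNonempty := hne }
  have key : ∀ τ : SchemeHomOver (𝟙 (Spec (CommRingCat.of K))) h, pointOf τ ∈ V →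
      ∃ χ : Γ(T', V) →ₐ[k] K,
        chiFibre Δ q ((Scheme.Modules.pullback (baseChangeSnd (fibreAt c t q.1) τ)).obj N) =
          (L₀.1.map χ).chi := by
    intro τ hτ
    have hr : Set.range τ.1 ⊆ Set.range hV.fromSpec := by
      rintro _ ⟨z, rfl⟩
      rw [hV.range_fromSpec, Subsingleton.elim z (IsLocalRing.closedPoint K)]
      exact hτ
    let τl := IsOpenImmersion.lift hV.fromSpec τ.1 hr
    have hτl : τl ≫ hV.fromSpec = τ.1 := IsOpenImmersion.lift_fac _ _ _
    obtain ⟨ψ, hψ⟩ := Spec.map_surjective τl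
    have hψK : ψ.hom.comp φB.hom = RingHom.id K := by
      have h1 : Spec.map ψ ≫ Spec.map φB = Spec.map (𝟙 (CommRingCat.of K)) := by
        rw [hψ, hφB, ← Category.assoc, hτl, τ.2, Spec.map_id]
      rw [← Spec.map_comp] at h1
      exact congrArg CommRingCat.Hom.hom (Spec.map_injective h1)
    let χ : Γ(T', V) →ₐ[k] K :=
      { ψ.hom with commutes' := fun z => RingHom.congr_fun hψK (algebraMap k K z) }
    have hχ : (specHom χ).1 = τl := hψ
    refine ⟨χ, ?_⟩
    have hpt : (postComp i (specHom χ)).1 = τ.1 := by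
      show (specHom χ).1 ≫ hV.fromSpec = τ.1
      rw [hχ, hτl]
    refine Eq.trans (chiMod_eq Δ (R.pullbackAlong (specHom χ))
      ⟨(Scheme.Modules.pullbackComp _ _).app _ ≪≫
        (Scheme.Modules.pullbackCongr (baseChangeSnd_comp c i (specHom χ))).app _ ≪≫
        (Scheme.Modules.pullbackComp _ _).app _ ≪≫
        (Scheme.Modules.pullbackCongr (baseChangeSnd_familyMap q h τ _ hpt)).app _ ≪≫
        ((Scheme.Modules.pullbackComp _ _).app _).symm⟩) ?_
    rw [Δ.cls_pullback, ← hL₀, Δ.map_mk χ L₀ (Datum.IsRigidifiable.map L₀.2 χ)]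
    rfl
  refine ⟨V, hxV, fun τ τ' hτ hτ' => ?_⟩
  obtain ⟨χ, e⟩ := key τ hτ
  obtain ⟨χ', e'⟩ := key τ' hτ'
  rw [e, e']
  exact chi_map_eq_of_irreducible FLTAgent.PicScheme.hasFiniteComplex L₀.1 χ χ'

/-- Algebraic equivalence to zero on a fibre gives degree zero there. -/
theorem chiCls_eq_of_isAlgEquivZero [IsAlgClosed K] (M : RigidifiedLineBundle c ε t)
    (hM : IsAlgEquivZero (fibreAt c t q.1)
      ((Scheme.Modules.pullback (pullback.fst (pullback.snd c t) q.1)).obj M.L)) :
    chiCls (Δ.cls K (M.pullbackAlong q)) = (Datum.one F.X K).chi := by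
  have h := invariant_eq_of_isAlgEquivZero (chiFibre_congr Δ q) (locallyConstant_chiFibre Δ q) hM
  obtain ⟨hr, hone⟩ := Δ.cls_unit K
  refine (chiMod_eq Δ (M.pullbackAlong q)
      ⟨((Scheme.Modules.pullbackCongr (by simp [fibreTo] :
          fibreTo c q ≫ pullback.fst (fibreAt c t q.1) _ ≫ pullback.fst (pullback.snd c t) q.1 =
            baseChangeSnd c q)).app M.L).symm ≪≫
        ((Scheme.Modules.pullbackComp _ _).app M.L).symm ≪≫
        (Scheme.Modules.pullback (fibreTo c q)).mapIso
          ((Scheme.Modules.pullbackComp _ _).app M.L).symm⟩).symm.trans (h.trans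
    ((chiMod_eq Δ (RigidifiedLineBundle.unit (specT k K))
      ⟨(Scheme.Modules.pullbackUnitIso (fibreTo c q)).symm⟩).trans ?_))
  rw [hone]
  rfl

end

/-- Layer G from descent. -/
theorem targetDegree (hS : TargetDescent.{u}) : TargetDegree.{u} := by
  intro k _ _ C c _ _ _ ε F Δ R hsm _ _ hgi T t M
  constructor
  · intro hM A _ _ p
    obtain ⟨L, hL⟩ := Quot.exists_rep (Δ.cls A (M.pullbackAlong p))
    refine ⟨L, hL, ?_⟩
    intro K _ _ _ φ
    let q : SchemeHomOver (specT k K) t := postComp p (specHom φ)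
    have h := chiCls_eq_of_isAlgEquivZero Δ q M (hM K q.1)
    rw [← (Δ.cls_eq_iff K _ _).2 (⟨(Scheme.Modules.pullbackComp _ _).app M.L ≪≫
      (Scheme.Modules.pullbackCongr (baseChangeSnd_comp c p (specHom φ))).app M.L⟩ :
        Nonempty (((M.pullbackAlong p).pullbackAlong (specHom φ)).L ≅ (M.pullbackAlong q).L)),
      Δ.cls_pullback, ← hL, Δ.map_mk φ L (Datum.IsRigidifiable.map L.2 φ)] at h
    exact h
  · intro hz K _ _ s
    obtain ⟨φK, hφK⟩ := Spec.map_surjective (s ≫ t)
    let : Algebra k K := φK.hom.toAlgebra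
    let q : SchemeHomOver (specT k K) t := ⟨s, hφK.symm⟩
    obtain ⟨g, hg⟩ := R.η_surj K _ (hz K q)
    obtain ⟨hr, hg₀⟩ := R.η_base K
    obtain ⟨hr', hone⟩ := Δ.cls_unit K
    obtain ⟨M₀, hM₀⟩ := (hS F Δ R.D.toBase).2 (fun A _ _ p => R.η A p) (fun φ p => R.η_map φ p)
    let g₀ : SchemeHomOver (specT k K) R.D.toBase := ⟨specT k K ≫ R.D.zeroSection, by
      rw [Category.assoc, R.D.zeroSection_toBase, Category.comp_id]⟩
    have := hsm
    have := hgi
    let h := pullback.snd R.D.toBase (specT k K)
    let ψ : pullback (fibreAt c t s) h ⟶ pullback c R.D.toBase :=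
      pullback.lift (pullback.fst (fibreAt c t s) h ≫ pullback.fst (pullback.snd c t) s ≫
          pullback.fst c t)
        (pullback.snd (fibreAt c t s) h ≫ pullback.fst R.D.toBase (specT k K)) (by
          have h1 := pullback.condition (f := fibreAt c t s) (g := h)
          rw [Category.assoc, Category.assoc, pullback.condition (f := c) (g := t),
            ← Category.assoc (pullback.fst (pullback.snd c t) s),
            pullback.condition (f := pullback.snd c t) (g := s), Category.assoc,
            Category.assoc, pullback.condition (f := R.D.toBase) (g := specT k K),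
            show s ≫ t = specT k K from q.2, ← Category.assoc, ← Category.assoc]
          exact congrArg (· ≫ specT k K) h1)
    let τ : SchemeHomOver (specT k K) R.D.toBase → SchemeHomOver (𝟙 (Spec (CommRingCat.of K))) h :=
      fun a => ⟨pullback.lift a.1 (𝟙 _) (by rw [a.2, Category.id_comp]), pullback.lift_snd _ _ _⟩
    have hτ : ∀ a, baseChangeSnd (fibreAt c t s) (τ a) ≫ ψ = fibreFrom c q ≫ baseChangeSnd c a := by
      intro a
      apply pullback.hom_ext <;>
        simp [τ, ψ, fibreFrom, baseChangeSnd_fst, baseChangeSnd_snd, baseChangeSnd_fst_assoc,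
          baseChangeSnd_snd_assoc, q]
    refine ⟨pullback R.D.toBase (specT k K), h, inferInstance, inferInstance,
      (Scheme.Modules.pullback ψ).obj M₀.L, M₀.isInvertible.pullback _, τ g₀, τ g, ⟨?_⟩, ⟨?_⟩⟩
    · have e : Nonempty ((M₀.pullbackAlong g₀).L ≅
          (RigidifiedLineBundle.unit (c := c) (ε := ε) (specT k K)).L) :=
        (Δ.cls_eq_iff K _ _).1 ((hM₀ K g₀).trans (hg₀.trans hone.symm))
      exact (Scheme.Modules.pullbackComp _ _).app _ ≪≫
        (Scheme.Modules.pullbackCongr (hτ g₀)).app _ ≪≫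
        ((Scheme.Modules.pullbackComp _ _).app _).symm ≪≫
        (Scheme.Modules.pullback (fibreFrom c q)).mapIso e.some ≪≫
        Scheme.Modules.pullbackUnitIso _
    · have e : Nonempty ((M₀.pullbackAlong g).L ≅ (M.pullbackAlong q).L) :=
        (Δ.cls_eq_iff K _ _).1 ((hM₀ K g).trans hg)
      exact (Scheme.Modules.pullbackComp _ _).app _ ≪≫
        (Scheme.Modules.pullbackCongr (hτ g)).app _ ≪≫
        ((Scheme.Modules.pullbackComp _ _).app _).symm ≪≫
        (Scheme.Modules.pullback (fibreFrom c q)).mapIso e.some ≪≫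
        (Scheme.Modules.pullbackComp _ _).app _ ≪≫
        (Scheme.Modules.pullbackCongr (fibreFrom_baseChangeSnd q)).app _ ≪≫
        ((Scheme.Modules.pullbackComp _ _).app _).symm

end FLTAgent.PicScheme.Degree
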