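import Fermat.Agent.PicScheme.Points.Finite
import Fermat.Agent.PicScheme.Group
import Fermat.Agent.PicScheme.Atlas

/-!
# Degree zero is open

A datum of degree zero at a geometric point has degree zero on a principal open around the point.
-/

set_option autoImplicit false
set_option linter.unusedSectionVars false
set_option linter.style.haveILetI false

noncomputable section

universe u

namespace FLTAgent.PicScheme

variable {k : Type u} [Field k] {X : Charts k} {A : Type u} [CommRing A] [Algebra k A]
  [IsNoetherianRing A]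

/-- The Euler characteristic of the fibres is a locally constant function of the image. -/
theorem exists_isLocallyConstant_chi (L : Datum X A) :
    ∃ g : PrimeSpectrum A → ℤ, IsLocallyConstant g ∧
      ∀ (K : Type u) [Field K] [Algebra k K] (χ : A →ₐ[k] K),
        (L.map χ).chi = g ⟨RingHom.ker χ.toRingHom, RingHom.ker_isPrime _⟩ := by
  have hfin : Degree.HasFiniteComplex X A := hasFiniteComplex
  obtain ⟨h1, h2⟩ := hfin L
  haveI := Degree.projective_fixed (A := A) L.rank₁.idem
  haveI := Degree.projective_fixed (A := A) L.rank₂.idem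
  haveI := Degree.projective_fixed (A := A) (Degree.e₂_idem L)
  obtain ⟨g, hg, he⟩ := Degree.exists_isLocallyConstant_euler (Degree.dlt L)
  refine ⟨g, hg, fun K _ _ χ => ?_⟩
  let := χ.toRingHom.toAlgebra
  have : IsScalarTower k A K := IsScalarTower.of_algHom χ
  refine Eq.trans ?_ (he K)
  rw [← Degree.chi_map L]
  congr 2

/-- Degree zero at a geometric point spreads to a principal open. -/
theorem exists_isDegZero_near (L : Datum X A) (K : Type u) [Field K] [IsAlgClosed K] [Algebra k K]
    (ψ : A →ₐ[k] K) (h : (L.map ψ).chi = (Datum.one X K).chi) :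
    ∃ f : A, ψ f ≠ 0 ∧ (L.map (toAway k f)).IsDegZero := by
  obtain ⟨g, hg, he⟩ := exists_isLocallyConstant_chi L
  obtain ⟨g₁, hg₁, he₁⟩ := exists_isLocallyConstant_chi (Datum.one X A)
  set z₀ : PrimeSpectrum A := ⟨RingHom.ker ψ.toRingHom, RingHom.ker_isPrime _⟩
  have hz₀ : g z₀ - g₁ z₀ = 0 := by
    rw [← he, ← he₁, h, Datum.map_one', sub_self]
  have hsub : IsLocallyConstant fun z => g z - g₁ z :=
    hg.comp₂ hg₁ (fun a b => a - b)
  have hU : IsOpen {z : PrimeSpectrum A | g z - g₁ z = 0} := hsub.isOpen_fiber 0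
  obtain ⟨_, ⟨f, rfl⟩, hf₀, hfU⟩ :=
    PrimeSpectrum.isTopologicalBasis_basic_opens.exists_subset_of_mem_open (show z₀ ∈ _ from hz₀) hU
  refine ⟨f, fun h0 => hf₀ h0, fun F _ _ _ φ => ?_⟩
  set χ := φ.comp (toAway k f)
  have hmem : (⟨RingHom.ker χ.toRingHom, RingHom.ker_isPrime _⟩ : PrimeSpectrum A) ∈
      (PrimeSpectrum.basicOpen f : Set (PrimeSpectrum A)) := fun h0 =>
    (((IsLocalization.Away.algebraMap_isUnit (S := Localization.Away f) f)).map φ).ne_zero
      (RingHom.mem_ker.1 h0)
  rw [← Datum.map_comp, ← Datum.map_one' (X := X) χ, he, he₁]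
  exact sub_eq_zero.1 (hfU hmem)

end FLTAgent.PicScheme
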